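/-
S33, block LEVEL3 (owner helper47).  `p = 3`, `M` odd: the nodes `NodeOld1`, `NodeOld2` at level `M`
follow from the same nodes at level `M * 2`.

The point is the injectivity of `α^* : W M 3 → W (M * 2) 3` although the degree of
`X₀(2 M) → X₀(M)` is `3`.  Proof: if `α x = y ^ 3` then `(w y) ^ 3 = β x = (y(Q²)) ^ 3`, hence
`w y = ζ y(Q²)` is even in `Q`.  The elements `f` such that `w f` is even form an intermediate field
of `FN (M * 2) / FN M` which does not contain `β j` (`w (β j) = j(Q)` is not even).  The degree is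
the prime number `3`, so this field is `α (FN M)`.
-/
import Fermat.Agent.S33.Mid.Nodes
import Fermat.Agent.C1.Mod.Main
import Fermat.Agent.C1.KumW
import Fermat.Agent.GAL.E.Exists
import Fermat.Agent.Lib.MulHecke.Degree
import Fermat.Agent.S24.B.Points

set_option autoImplicit false

noncomputable section

namespace Fermat.Agent.S33.Inst

open ModularCurve AlgebraicCurve Fermat.Agent.S24 Fermat.Agent.S24.B Fermat.Agent.GAL
  Fermat.Agent.GAL.E Fermat.Agent.C1 Fermat.Agent.S30 Fermat.Agent.S33.Mid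

/-! ### Cube roots -/

section Cube

/-- a cube root of unity in `ℚ̄((Q))` is a constant, hence even. -/
theorem level3_twist_of_pow_three {r : LaurentSeries Kbar} (hr : r ^ 3 = 1) (ξ : Kbarˣ) :
    twist ξ r = r := by
  have hprim : IsPrimitiveRoot (HahnSeries.C ((zetaK 3 : Kbarˣ) : Kbar) : LaurentSeries Kbar) 3 :=
    (IsPrimitiveRoot.coe_units_iff.2 (isPrimitiveRoot_zetaK 3)).map_of_injective
      (f := (HahnSeries.C : Kbar →+* LaurentSeries Kbar)) HahnSeries.C_injective
  obtain ⟨i, -, hi⟩ := hprim.eq_pow_of_pow_eq_one hr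
  rw [← hi, ← map_pow, twist_C]

variable {M : ℕ} [NeZero M]

/-- the ring homomorphism `f ↦ (w f)(Q)`. -/
def level3Hom (D : ALData M 2) : FN (M * 2) →+* LaurentSeries Kbar :=
  (modularFunctionFieldBar (M * 2)).val.toRingHom.comp D.w.toRingHom

theorem level3Hom_apply (D : ALData M 2) (f : FN (M * 2)) :
    level3Hom D f = ((D.w f : FN (M * 2)) : LaurentSeries Kbar) := rfl

/-- the field of the `f` such that `w f` is even. -/
def level3Even (D : ALData M 2) : Subfield (FN (M * 2)) :=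
  RingHom.eqLocusField ((twist (-1 : Kbarˣ)).comp (level3Hom D)) (level3Hom D)

theorem mem_level3Even (D : ALData M 2) (f : FN (M * 2)) :
    f ∈ level3Even D ↔ twist (-1 : Kbarˣ) ((D.w f : FN (M * 2)) : LaurentSeries Kbar) =
      ((D.w f : FN (M * 2)) : LaurentSeries Kbar) := Iff.rfl

theorem level3_twist_qExpand (f : LaurentSeries Kbar) :
    twist (-1 : Kbarˣ) (qExpand Kbar 2 f) = qExpand Kbar 2 f := by
  rw [HeckeComm.twist_qExpand, neg_one_sq, twist_one]

theorem al_mem_level3Even (D : ALData M 2) (x : FN M) :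
    heckeAlphaBar Kbar M 2 x ∈ level3Even D := by
  rw [mem_level3Even, D.w_al, coe_heckeBetaBar, level3_twist_qExpand]

theorem be_j_not_mem_level3Even (D : ALData M 2) :
    heckeBetaBar Kbar M 2 (jF M) ∉ level3Even D := by
  rw [mem_level3Even, D.w_be, coe_heckeAlphaBar]
  intro h
  have h1 := congrArg (fun f : LaurentSeries Kbar => f.coeff (-1)) h
  have h2 : ((jF M : FN M) : LaurentSeries Kbar) = Jser 1 := rfl
  simp only [h2, twist_coeff, Jser_one_coeff_neg_one, mul_one] at h1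
  have h3 : (((-1 : Kbarˣ) ^ (-1 : ℤ) : Kbarˣ) : Kbar) = -1 := by simp
  rw [h3] at h1
  norm_num at h1

/-- **Descent of cube roots** along `X₀(2 M) → X₀(M)`, `M` odd. -/
theorem level3_exists_cube_root (hM : ¬ 2 ∣ M) (x : FN M) (y : FN (M * 2))
    (h : heckeAlphaBar Kbar M 2 x = y ^ 3) : ∃ y₀ : FN M, x = y₀ ^ 3 := by
  obtain ⟨D⟩ := nonempty_alData M 2 Nat.prime_two hM
  rcases eq_or_ne y 0 with rfl | hy
  · refine ⟨0, ?_⟩
    rw [zero_pow (by norm_num)] at h ⊢
    exact (map_eq_zero _).1 h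
  -- `w y` is even
  have hyE : y ∈ level3Even D := by
    rw [mem_level3Even]
    set Y : LaurentSeries Kbar := (y : LaurentSeries Kbar) with hY
    have hY0 : qExpand Kbar 2 Y ≠ 0 := by
      intro h0
      apply hy
      apply Subtype.ext
      exact qExpand_injective' 2 (h0.trans (map_zero _).symm)
    have h1 : ((D.w y : FN (M * 2)) : LaurentSeries Kbar) ^ 3 = qExpand Kbar 2 Y ^ 3 := by
      have e1 : D.w y ^ 3 = heckeBetaBar Kbar M 2 x := by rw [← map_pow, ← h, D.w_al]
      have e2 := congrArg (fun f : FN (M * 2) => (f : LaurentSeries Kbar)) e1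
      have e3 := congrArg (fun f : FN (M * 2) => (f : LaurentSeries Kbar)) h
      simp only [coe_heckeBetaBar, coe_heckeAlphaBar] at e2 e3
      rw [e3] at e2
      rw [← map_pow]
      exact e2
    have h2 : (((D.w y : FN (M * 2)) : LaurentSeries Kbar) / qExpand Kbar 2 Y) ^ 3 = 1 := by
      rw [div_pow, h1, div_self (pow_ne_zero _ hY0)]
    have h3 := level3_twist_of_pow_three h2 (-1)
    rw [map_div₀, level3_twist_qExpand] at h3
    exact (div_left_inj' hY0).1 h3
  -- the degree is prime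
  let := algAlpha M 2
  have hdeg : Module.finrank (FN M) (FN (M * 2)) = 3 :=
    Lib.MulHecke.finrank_algAlpha M 2 Nat.prime_two hM
  have hsimple : IsSimpleOrder (IntermediateField (FN M) (FN (M * 2))) :=
    IntermediateField.isSimpleOrder_of_finrank_prime (FN M) (FN (M * 2))
      (by rw [hdeg]; exact Nat.prime_three)
  let E' : IntermediateField (FN M) (FN (M * 2)) :=
    (level3Even D).toIntermediateField (fun x => al_mem_level3Even D x)
  rcases eq_bot_or_eq_top E' with hE | hE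
  · have hy' : y ∈ E' := hyE
    rw [hE, IntermediateField.mem_bot] at hy'
    obtain ⟨y₀, hy₀⟩ := hy'
    refine ⟨y₀, ?_⟩
    apply (heckeAlphaBar Kbar M 2).toRingHom.injective
    show heckeAlphaBar Kbar M 2 x = heckeAlphaBar Kbar M 2 (y₀ ^ 3)
    rw [h, map_pow, ← hy₀]
    rfl
  · exfalso
    have : heckeBetaBar Kbar M 2 (jF M) ∈ E' := by rw [hE]; exact IntermediateField.mem_top
    exact be_j_not_mem_level3Even D this

end Cube

/-! ### The pull-back `α^*` on the Kummer models -/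

section Pull

variable {M q : ℕ} [NeZero M] [NeZero q] (D : ALData M q) (n : ℕ)

theorem alW_cls (u : kum M n) :
    D.alW n (cls u) = cls (⟨Units.map ((heckeAlphaBar Kbar M q : FN M →+* FN (M * q)) :
      FN M →* FN (M * q)) (u : (FN M)ˣ), D.isKum_al n _ u.2⟩ : kum (M * q) n) := rfl

/-- `α` commutes with the multiplicative Hecke operators. -/
theorem heckeOp_T_al {p : ℕ} [NeZero p] (Hp : HeckeOp M p) (Hp' : HeckeOp (M * q) p) (u : FN M) :
    Hp'.T (heckeAlphaBar Kbar M q u) = heckeAlphaBar Kbar M q (Hp.T u) := by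
  refine Subtype.ext (qExpand_injective' p ?_)
  rw [Hp'.qExpand_T, coe_heckeAlphaBar, coe_heckeAlphaBar, Hp.qExpand_T]

theorem TW_alW {p : ℕ} [NeZero p] (Hp : HeckeOp M p) (Hp' : HeckeOp (M * q) p) (z : W M n) :
    Hp'.TW n (D.alW n z) = D.alW n (Hp.TW n z) := by
  obtain ⟨u, rfl⟩ := cls_surjective z
  rw [alW_cls, HeckeOp.TW_cls, HeckeOp.TW_cls, alW_cls]
  refine congrArg cls (Subtype.ext (Units.ext ?_))
  exact heckeOp_T_al Hp Hp' _

theorem cong1_al {A : ValuationSubring Kbar} {u : FN M} (h : Cong1 A M u) :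
    Cong1 A (M * q) (heckeAlphaBar Kbar M q u) := by
  obtain ⟨P, Q, hP, hQ, h1, h2, rfl⟩ := h
  refine ⟨P, Q, (heckeAlphaBar Kbar M q ⟨incl A P, hP⟩).2, (heckeAlphaBar Kbar M q ⟨incl A Q, hQ⟩).2,
    h1, h2, ?_⟩
  rw [map_div₀]
  rfl

theorem isKinf_alW {A : ValuationSubring Kbar} {z : W M n} (h : IsKinf A z) :
    IsKinf A (D.alW n z) := by
  obtain ⟨u, rfl, hu⟩ := h
  exact ⟨_, (alW_cls D n u).symm, cong1_al hu⟩

end Pull

/-! ### Level `M` from level `M * 2` -/

section Transfer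

variable {M : ℕ} [NeZero M]

/-- `α^* : W M 3 → W (M * 2) 3` is injective for odd `M`. -/
theorem alW_three_injective (hM : ¬ 2 ∣ M) (D : ALData M 2) : Function.Injective (D.alW 3) := by
  rw [injective_iff_map_eq_zero]
  intro z hz
  obtain ⟨u, rfl⟩ := cls_surjective z
  rw [alW_cls, cls_eq_zero_iff] at hz
  obtain ⟨w, hw⟩ := hz
  have h1 : heckeAlphaBar Kbar M 2 ((u : (FN M)ˣ) : FN M) = (w : FN (M * 2)) ^ 3 := by
    have := congrArg (fun v : (FN (M * 2))ˣ => (v : FN (M * 2))) hw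
    simpa using this.symm
  obtain ⟨y₀, hy₀⟩ := level3_exists_cube_root hM _ _ h1
  rw [cls_eq_zero_iff]
  exact mem_pows_of_eq_pow hy₀

omit [NeZero M] in
theorem level3_not_dvd (hM3 : ¬ 3 ∣ M) : ¬ 3 ∣ M * 2 := fun h =>
  (Nat.prime_three.dvd_mul.1 h).elim hM3 (by norm_num)

/-- **LEVEL3, Old2.** -/
theorem nodeOld2_of_mul_two (hM : ¬ 2 ∣ M) (hM3 : ¬ 3 ∣ M) (h : NodeOld2 (M * 2) 3) :
    NodeOld2 M 3 := by
  intro A hA Hp z hK hcyc hT
  obtain ⟨D⟩ := nonempty_alData M 2 Nat.prime_two hM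
  apply alW_three_injective hM D
  rw [map_zero]
  refine h A hA (heckeOp (M * 2) 3 Nat.prime_three (level3_not_dvd hM3)) (D.alW 3 z)
    (isKinf_alW D 3 hK) (fun σ hσ a ha => ?_) ?_
  · rw [← D.alW_rho, hcyc σ hσ a ha, map_nsmul]
  · rw [TW_alW D 3 Hp, hT, map_zero]

/-- **LEVEL3, Old1.** -/
theorem nodeOld1_of_mul_two (hM : ¬ 2 ∣ M) (hM3 : ¬ 3 ∣ M) (h : NodeOld1 (M * 2) 3) :
    NodeOld1 M 3 := by
  intro A hA Hp Z hK hstab hinj s hs a ha ha1 z hz hfix
  obtain ⟨D⟩ := nonempty_alData M 2 Nat.prime_two hM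
  have hD := alW_three_injective hM D
  apply hD
  rw [map_zero]
  refine h A hA (heckeOp (M * 2) 3 Nat.prime_three (level3_not_dvd hM3)) (Z.map (D.alW 3))
    ?_ ?_ ?_ s hs a ha ha1 (D.alW 3 z) (AddSubgroup.mem_map_of_mem _ hz) ?_
  · rintro _ ⟨z', hz', rfl⟩
    exact isKinf_alW D 3 (hK z' hz')
  · rintro _ ⟨z', hz', rfl⟩
    rw [TW_alW D 3 Hp]
    exact AddSubgroup.mem_map_of_mem _ (hstab z' hz')
  · rintro _ ⟨z', hz', rfl⟩ h0
    rw [TW_alW D 3 Hp] at h0
    rw [hinj z' hz' (hD (h0.trans (map_zero _).symm)), map_zero]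
  · rw [← D.alW_rho, hfix]

end Transfer

end Fermat.Agent.S33.Inst

end
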