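/-
S33, block LEVEL3 (owner helper47).  `p = 3`, `M` odd: the node `NodeNew` at level `M * 3` follows
from the same node at level `(M * 2) * 3`.
-/
import Fermat.Agent.S33.Inst.Level3

set_option autoImplicit false

noncomputable section

namespace Fermat.Agent.S33.Inst

open ModularCurve AlgebraicCurve Fermat.Agent.S24 Fermat.Agent.S24.B Fermat.Agent.GAL
  Fermat.Agent.GAL.E Fermat.Agent.C1 Fermat.Agent.S30 Fermat.Agent.S33.Mid

/-! ### Inclusions of function fields -/

section Inc

variable {N L : ℕ}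

/-- the inclusion `FN N ⊆ FN L`. -/
def incF (h : modularFunctionFieldBar N ≤ modularFunctionFieldBar L) : FN N →ₐ[Kbar] FN L :=
  IntermediateField.inclusion h

theorem coe_incF (h : modularFunctionFieldBar N ≤ modularFunctionFieldBar L) (x : FN N) :
    ((incF h x : FN L) : LaurentSeries Kbar) = (x : LaurentSeries Kbar) :=
  IntermediateField.coe_inclusion h x

theorem level3_le_of_eq_mul [NeZero N] {k : ℕ} [NeZero k] (hL : L = N * k) :
    modularFunctionFieldBar N ≤ modularFunctionFieldBar L := by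
  subst hL
  intro x hx
  exact (heckeAlphaBar Kbar N k ⟨x, hx⟩).2

theorem incF_integral [NeZero N] {k : ℕ} [NeZero k] (hL : L = N * k)
    (h : modularFunctionFieldBar N ≤ modularFunctionFieldBar L) :
    (incF h).toRingHom.IsIntegral := by
  subst hL
  exact S37.HeckeInputs.alpha_integral N k

variable (h : modularFunctionFieldBar N ≤ modularFunctionFieldBar L)
  (hint : (incF h).toRingHom.IsIntegral) (n : ℕ)

/-- the pull-back on the Kummer models. -/
def incW : W N n →+ W L n :=
  mapW₂ (Units.map ((incF h : FN N →+* FN L) : FN N →* FN L))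
    fun _ hu => isKum_map (incF h) hint hu

theorem incW_cls (u : kum N n) :
    incW h hint n (cls u) = cls (⟨Units.map ((incF h : FN N →+* FN L) : FN N →* FN L)
      (u : (FN N)ˣ), isKum_map (incF h) hint u.2⟩ : kum L n) := rfl

theorem galF_incF (σ : E.GQ) (x : FN N) : galF L σ (incF h x) = incF h (galF N σ x) := by
  apply Subtype.ext
  rw [coe_galF, coe_incF, coe_incF, coe_galF]

theorem rho_incW (σ : E.GQ) (x : W N n) :
    rho L n σ (incW h hint n x) = incW h hint n (rho N n σ x) := by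
  obtain ⟨u, rfl⟩ := cls_surjective x
  rw [incW_cls, rho_cls, rho_cls, incW_cls]
  refine congrArg cls (Subtype.ext (Units.ext ?_))
  exact galF_incF h σ _

theorem cong1_incF {A : ValuationSubring Kbar} {u : FN N} (hu : Cong1 A N u) :
    Cong1 A L (incF h u) := by
  obtain ⟨P, Q, hP, hQ, h1, h2, rfl⟩ := hu
  refine ⟨P, Q, (incF h ⟨incl A P, hP⟩).2, (incF h ⟨incl A Q, hQ⟩).2, h1, h2, ?_⟩
  rw [map_div₀]
  rfl

/-- descent of cube roots -/
theorem incF_exists_cube_root [NeZero N] (hN : ¬ 2 ∣ N) (hL : L = N * 2) (x : FN N) (y : FN L)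
    (hxy : incF h x = y ^ 3) : ∃ y₀ : FN N, x = y₀ ^ 3 := by
  subst hL
  exact level3_exists_cube_root hN x y hxy

theorem incW_three_injective [NeZero N] (hN : ¬ 2 ∣ N) (hL : L = N * 2) :
    Function.Injective (incW h hint 3) := by
  rw [injective_iff_map_eq_zero]
  intro z hz
  obtain ⟨u, rfl⟩ := cls_surjective z
  rw [incW_cls, cls_eq_zero_iff] at hz
  obtain ⟨w, hw⟩ := hz
  have h1 : incF h ((u : (FN N)ˣ) : FN N) = (w : FN L) ^ 3 := by
    have := congrArg (fun v : (FN L)ˣ => (v : FN L)) hw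
    simpa using this.symm
  obtain ⟨y₀, hy₀⟩ := incF_exists_cube_root h hN hL _ _ h1
  rw [cls_eq_zero_iff]
  exact mem_pows_of_eq_pow hy₀

end Inc

/-! ### Atkin-Lehner data at the levels `M * q` and `(M * k) * q` -/

section AL

variable {M k q : ℕ} [NeZero M] [NeZero k] [NeZero q] (D : ALData M q) (D' : ALData (M * k) q)
  (h : modularFunctionFieldBar (M * q) ≤ modularFunctionFieldBar (M * k * q))

theorem incF_al (t : FN M) : incF h (heckeAlphaBar Kbar M q t) =
    heckeAlphaBar Kbar (M * k) q (heckeAlphaBar Kbar M k t) := by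
  apply Subtype.ext
  rw [coe_incF, coe_heckeAlphaBar, coe_heckeAlphaBar, coe_heckeAlphaBar]

theorem incF_be (t : FN M) : incF h (heckeBetaBar Kbar M q t) =
    heckeBetaBar Kbar (M * k) q (heckeAlphaBar Kbar M k t) := by
  apply Subtype.ext
  rw [coe_incF, coe_heckeBetaBar, coe_heckeBetaBar, coe_heckeAlphaBar]

/-- the Atkin-Lehner involutions at `q` are compatible. -/
theorem w_incF (hq : q.Prime) (x : FN (M * q)) : D'.w (incF h x) = incF h (D.w x) := by
  refine FN_mul_induction hq (P := fun x => D'.w (incF h x) = incF h (D.w x)) ?_ ?_ ?_ ?_ ?_ ?_ x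
  · intro t; rw [incF_al, D'.w_al, D.w_al, incF_be]
  · intro t; rw [incF_be, D'.w_be, D.w_be, incF_al]
  · intro f g hf hg; rw [map_add, map_add, map_add, map_add, hf, hg]
  · intro f hf; rw [map_neg, map_neg, map_neg, map_neg, hf]
  · intro f g hf hg; rw [map_mul, map_mul, map_mul, map_mul, hf, hg]
  · intro f hf; rw [map_inv₀, map_inv₀, map_inv₀, map_inv₀, hf]

/-- the norms along `α_q` are compatible. -/
theorem nm_incF (hq : q.Prime) (u : FN (M * q)) :
    D'.nm (incF h u) = heckeAlphaBar Kbar M k (D.nm u) := by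
  refine Subtype.ext (qExpand_injective' q ?_)
  rw [D'.qExpand_nm, w_incF D D' h hq, coe_incF, coe_incF, coe_heckeAlphaBar, D.qExpand_nm]

variable (hint : (incF h).toRingHom.IsIntegral) (n : ℕ)

theorem level3_wW_cls (u : kum (M * q) n) :
    D.wW n (cls u) = cls (⟨Units.map ((D.w : FN (M * q) →+* FN (M * q)) : FN (M * q) →* FN (M * q))
      (u : (FN (M * q))ˣ), D.isKum_w n _ u.2⟩ : kum (M * q) n) := rfl

theorem level3_nmW_cls (u : kum (M * q) n) :
    D.nmW n (cls u) = cls (⟨Units.map D.nm (u : (FN (M * q))ˣ), D.isKum_nm n _ u.2⟩ : kum M n) :=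
  rfl

theorem wW_incW (hq : q.Prime) (x : W (M * q) n) :
    D'.wW n (incW h hint n x) = incW h hint n (D.wW n x) := by
  obtain ⟨u, rfl⟩ := cls_surjective x
  rw [incW_cls, level3_wW_cls, level3_wW_cls, incW_cls]
  refine congrArg cls (Subtype.ext (Units.ext ?_))
  exact w_incF D D' h hq _

theorem nmW_incW (E : ALData M k) (hq : q.Prime) (x : W (M * q) n) :
    D'.nmW n (incW h hint n x) = E.alW n (D.nmW n x) := by
  obtain ⟨u, rfl⟩ := cls_surjective x
  rw [incW_cls, level3_nmW_cls, level3_nmW_cls, alW_cls]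
  refine congrArg cls (Subtype.ext (Units.ext ?_))
  exact nm_incF D D' h hq _

theorem isTor_incW (hq : q.Prime) {A : ValuationSubring Kbar} {x : W (M * q) n}
    (hx : IsTor D A x) : IsTor D' A (incW h hint n x) := by
  obtain ⟨u, rfl, hu1, hu2⟩ := hx
  refine ⟨_, (incW_cls h hint n u).symm, cong1_incF h hu1, ?_⟩
  show Cong1 A (M * k * q) (D'.w (incF h ((u : (FN (M * q))ˣ) : FN (M * q))))
  rw [w_incF D D' h hq]
  exact cong1_incF h hu2

end AL

/-! ### The transfer -/

/-- **LEVEL3, New.** -/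
theorem nodeNew_of_mul_two {M : ℕ} [NeZero M] (hM : ¬ 2 ∣ M) (hM3 : ¬ 3 ∣ M)
    (hnode : NodeNew (M * 2) 3) : NodeNew M 3 := by
  intro D A hA x hTor h1 h2 s hs a ha ha1 hfix
  obtain ⟨D'⟩ := nonempty_alData (M * 2) 3 Nat.prime_three (level3_not_dvd hM3)
  obtain ⟨E⟩ := nonempty_alData M 2 Nat.prime_two hM
  have hL : M * 2 * 3 = M * 3 * 2 := by ring
  have h := level3_le_of_eq_mul hL
  have hint := incF_integral hL h
  have hN : ¬ 2 ∣ M * 3 := fun hd => (Nat.prime_two.dvd_mul.1 hd).elim hM (by norm_num)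
  apply incW_three_injective h hint hN hL
  rw [map_zero]
  refine hnode D' A hA (incW h hint 3 x) (isTor_incW D D' h hint 3 Nat.prime_three hTor) ?_ ?_
    s hs a ha ha1 ?_
  · rw [nmW_incW D D' h hint 3 E Nat.prime_three, h1, map_zero]
  · rw [wW_incW D D' h hint 3 Nat.prime_three, nmW_incW D D' h hint 3 E Nat.prime_three, h2,
      map_zero]
  · rw [rho_incW, hfix]

end Fermat.Agent.S33.Inst

end
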